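/-
P-CFT / RECIP-Q, row TR-DICT (helper62): the dictionary FRAME ↔ LOCAL respects levels,
cocycles and coboundaries (`Fermat.Agent.H25.Recip.TraceDictStatement`).

The exponential `a ↦ ζ ^ a.val` turns sums in `ZMod p` into products in `ℚ̄ˣ` and the twist by
the cyclotomic character into the Galois action on `μ_p`.
-/
import Fermat.Agent.H25.Recip.TraceInterfaces

set_option autoImplicit false
set_option synthInstance.maxHeartbeats 400000
set_option linter.style.haveILetI false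
set_option linter.unusedSectionVars false

namespace Fermat.Agent.H62.Cft

open Fermat.Agent.H13.Cft Fermat.Agent.H78.CFT
open Fermat.Agent.H25.Recip ExtCitation groupCohomology

/-! ### The exponential -/

section Zeta

variable {p : ℕ} [Fact p.Prime] (ζ : Qbˣ)

/-- The exponential `ZMod p → ℚ̄ˣ`, `a ↦ ζ ^ a.val`. -/
noncomputable def trdExp (a : ZMod p) : Qbˣ := ζ ^ a.val

theorem trd_zeta_pow (hζ : IsPrimitiveRoot (ζ : Qb) p) : ζ ^ p = 1 := by
  apply Units.ext
  rw [Units.val_pow_eq_pow_val, Units.val_one]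
  exact hζ.pow_eq_one

theorem trdExp_add (hζ : IsPrimitiveRoot (ζ : Qb) p) (a b : ZMod p) :
    trdExp ζ (a + b) = trdExp ζ a * trdExp ζ b := by
  haveI : NeZero p := ⟨(Fact.out : p.Prime).ne_zero⟩
  unfold trdExp
  rw [ZMod.val_add, ← pow_add, ← pow_eq_pow_mod _ (trd_zeta_pow ζ hζ)]

theorem trdExp_mul (hζ : IsPrimitiveRoot (ζ : Qb) p) (a b : ZMod p) :
    trdExp ζ (a * b) = (trdExp ζ b) ^ a.val := by
  haveI : NeZero p := ⟨(Fact.out : p.Prime).ne_zero⟩
  unfold trdExp
  rw [ZMod.val_mul, ← pow_mul, ← pow_eq_pow_mod _ (trd_zeta_pow ζ hζ), mul_comm]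

theorem trdExp_sub (hζ : IsPrimitiveRoot (ζ : Qb) p) (a b : ZMod p) :
    trdExp ζ (a - b) = trdExp ζ a / trdExp ζ b := by
  rw [eq_div_iff_mul_eq', mul_comm, ← trdExp_add ζ hζ, add_sub_cancel]

/-- The Galois action on `ζ` is through the cyclotomic character. -/
theorem trd_act_zeta (hζ : IsPrimitiveRoot (ζ : Qb) p) (σ : Qb ≃ₐ[ℚ] Qb) :
    actU σ ζ = ζ ^ ((cycloChar p σ : (ZMod p)ˣ) : ZMod p).val := by
  haveI : NeZero p := ⟨(Fact.out : p.Prime).ne_zero⟩
  have hmem : ζ ∈ rootsOfUnity p (AlgebraicClosure ℚ) := by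
    rw [mem_rootsOfUnity]
    exact trd_zeta_pow ζ hζ
  have h := modularCyclotomicCharacter.spec (AlgebraicClosure ℚ)
    (ExtCitation.card_rootsOfUnity_eq_self p)
    (σ : AlgebraicClosure ℚ ≃+* AlgebraicClosure ℚ) hmem
  apply Units.ext
  rw [coe_actU, Units.val_pow_eq_pow_val]
  exact h

theorem trdExp_act (hζ : IsPrimitiveRoot (ζ : Qb) p) (σ : Qb ≃ₐ[ℚ] Qb) (a : ZMod p) :
    actU σ (trdExp ζ a) = trdExp ζ (((cycloChar p σ : (ZMod p)ˣ) : ZMod p) * a) := by
  rw [mul_comm, trdExp_mul ζ hζ]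
  unfold trdExp
  rw [map_pow, trd_act_zeta ζ hζ]

/-- The multiplicative cocycle identity from the additive one. -/
theorem trd_cocycle (hζ : IsPrimitiveRoot (ζ : Qb) p) {Γ : Type} [Group Γ]
    (r : Γ →* (Qb ≃ₐ[ℚ] Qb)) (f : (Fin 2 → Γ) → ZMod p)
    (hf : ∀ g0 g1 g2 : Γ, ((cycloChar p (r g0) : (ZMod p)ˣ) : ZMod p) * f ![g1, g2]
      - f ![g0 * g1, g2] + f ![g0, g1 * g2] - f ![g0, g1] = 0) (g0 g1 g2 : Γ) :
    trdExp ζ (f ![g0 * g1, g2]) * trdExp ζ (f ![g0, g1])
      = actU (r g0) (trdExp ζ (f ![g1, g2])) * trdExp ζ (f ![g0, g1 * g2]) := by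
  rw [trdExp_act ζ hζ, ← trdExp_add ζ hζ, ← trdExp_add ζ hζ]
  congr 1
  linear_combination -(hf g0 g1 g2)

/-- The multiplicative coboundary of the exponential of a 1-cochain. -/
theorem trd_cobound (hζ : IsPrimitiveRoot (ζ : Qb) p) {Γ : Type} [Group Γ]
    (r : Γ →* (Qb ≃ₐ[ℚ] Qb)) (b : Γ → ZMod p) (g0 g1 : Γ) :
    actU (r g0) (trdExp ζ (b g1)) * trdExp ζ (b g0) / trdExp ζ (b (g0 * g1))
      = trdExp ζ (((cycloChar p (r g0) : (ZMod p)ˣ) : ZMod p) * b g1 - b (g0 * g1) + b g0) := by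
  rw [trdExp_act ζ hζ, ← trdExp_add ζ hζ, ← trdExp_sub ζ hζ]
  congr 1
  ring

end Zeta

/-! ### The differentials in degrees `1` and `2` -/

section Diff

variable {k G : Type} [CommRing k] [Group G]

theorem trd_d1_apply (M : Rep.{0} k G) (x : (Fin 1 → G) → M) (g : Fin 2 → G) :
    (inhomogeneousCochains.d M 1).hom x g
      = M.ρ (g 0) (x (fun _ => g 1)) - x (fun _ => g 0 * g 1) + x (fun _ => g 0) := by
  rw [inhomogeneousCochains.d_hom_apply]
  simp only [Fin.sum_univ_succ, Fin.sum_univ_zero]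
  have e1 : (fun i : Fin 1 => g i.succ) = fun _ => g 1 := by
    funext i; fin_cases i; rfl
  have e2 : Fin.contractNth (0 : Fin 2) (· * ·) g = fun _ => g 0 * g 1 := by
    funext i; fin_cases i; simp [Fin.contractNth]
  have e3 : Fin.contractNth (Fin.succ (0 : Fin 1)) (· * ·) g = fun _ => g 0 := by
    funext i; fin_cases i; simp [Fin.contractNth]
  rw [e1, e2, e3]
  simp only [Fin.val_zero, Fin.val_succ, zero_add, pow_one, neg_smul, one_smul]
  have h2 : ((-1 : k) ^ (1 + 1)) = 1 := by norm_num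
  rw [h2, one_smul]
  abel

theorem trd_d2_apply (M : Rep.{0} k G) (x : (Fin 2 → G) → M) (g : Fin 3 → G) :
    (inhomogeneousCochains.d M 2).hom x g
      = M.ρ (g 0) (x ![g 1, g 2]) - x ![g 0 * g 1, g 2] + x ![g 0, g 1 * g 2]
        - x ![g 0, g 1] := by
  rw [inhomogeneousCochains.d_hom_apply]
  simp only [Fin.sum_univ_succ, Fin.sum_univ_zero]
  have e1 : (fun i : Fin 2 => g i.succ) = ![g 1, g 2] := by
    funext i; fin_cases i <;> rfl
  have e2 : Fin.contractNth (0 : Fin 3) (· * ·) g = ![g 0 * g 1, g 2] := by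
    funext i; fin_cases i <;> simp [Fin.contractNth]
  have e3 : Fin.contractNth (Fin.succ (0 : Fin 2)) (· * ·) g = ![g 0, g 1 * g 2] := by
    funext i; fin_cases i <;> simp [Fin.contractNth]
  have e4 : Fin.contractNth (Fin.succ (Fin.succ (0 : Fin 1))) (· * ·) g = ![g 0, g 1] := by
    funext i; fin_cases i <;> simp [Fin.contractNth]
  rw [e1, e2, e3, e4]
  simp only [Fin.val_zero, Fin.val_succ, zero_add, pow_one, neg_smul, one_smul]
  have h2 : ((-1 : k) ^ (1 + 1)) = 1 := by norm_num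
  have h3 : ((-1 : k) ^ (1 + 1 + 1)) = -1 := by norm_num
  rw [h2, h3, one_smul, neg_smul, one_smul]
  abel

theorem trd_mu_ρ (χ : G →* kˣ) (g : G) (m : k) :
    (muRep χ).ρ g m = ((χ g : kˣ) : k) * m := rfl

theorem trd_mu_res_ρ {Γ : Type} [Group Γ] (r : Γ →* G) (χ : G →* kˣ) (g : Γ) (m : k) :
    (Rep.res r (muRep χ)).ρ g m = ((χ (r g) : kˣ) : k) * m := rfl

end Diff

/-! ### Levels -/

section Level

/-- Level 2-cochains give level functions on `H × H` along a compatible map. -/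
theorem trd_lvlFun₂ {k Γ H : Type} [CommRing k] [Group Γ] [Group H] (𝒰 : LevelSys Γ)
    (𝒱 : LevelSys H) (e : H →* Γ) (he : 𝒱.Compat 𝒰 e) (M : Rep.{0} k Γ)
    {f : (Fin 2 → Γ) → M} (hf : f ∈ lvlCochains 𝒰 M 2) {A : Type} (φ : M → A) :
    IsLvlFun₂ 𝒱 (fun y : H × H => φ (f ![e y.1, e y.2])) := by
  obtain ⟨N, hN, hf⟩ := hf
  obtain ⟨N', hN', hle⟩ := he N hN
  refine ⟨N', hN', fun g h n hn m hm => ?_⟩
  show φ (f ![e (g * n), e (h * m)]) = φ (f ![e g, e h])
  have h1 : ![e (g * n), e (h * m)] = ![e g, e h] * ![e n, e m] := by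
    rw [map_mul, map_mul]
    funext i; fin_cases i <;> rfl
  have h2 : ∀ i, ![e n, e m] i ∈ N := by
    intro i
    fin_cases i
    · exact hle hn
    · exact hle hm
  rw [h1, hf.1 _ _ h2]

/-- Level 1-cochains give level functions on `H` along a compatible map. -/
theorem trd_lvlFun₁ {k Γ H : Type} [CommRing k] [Group Γ] [Group H] (𝒰 : LevelSys Γ)
    (𝒱 : LevelSys H) (e : H →* Γ) (he : 𝒱.Compat 𝒰 e) (M : Rep.{0} k Γ)
    {f : (Fin 1 → Γ) → M} (hf : f ∈ lvlCochains 𝒰 M 1) {A : Type} (φ : M → A) :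
    IsLvlFun₁ 𝒱 (fun y : H => φ (f (fun _ => e y))) := by
  obtain ⟨N, hN, hf⟩ := hf
  obtain ⟨N', hN', hle⟩ := he N hN
  refine ⟨N', hN', fun g n hn => ?_⟩
  show φ (f (fun _ => e (g * n))) = φ (f (fun _ => e g))
  have h1 : (fun _ : Fin 1 => e (g * n)) = (fun _ => e g) * (fun _ => e n) := by
    rw [map_mul]
    rfl
  rw [h1, hf.1 _ _ (fun _ => hle hn)]

/-- The inverse of `locEquiv` is compatible with the level systems. -/
theorem trd_compat_loc (q : Nat.Primes) :
    (lvlE (locField q)).Compat (pullbackLevelSys (primeLocalToGlobal q))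
      ((locEquiv q).symm : (locField q).fixingSubgroup →* primeLocalGaloisGroup q) := by
  rintro N ⟨hN1, hN2, F, hF, hFN⟩
  haveI := hN1
  refine ⟨N.comap ((locEquiv q).symm : (locField q).fixingSubgroup →* primeLocalGaloisGroup q),
    ⟨inferInstance, ⟨?_⟩, F, hF, ?_⟩, le_rfl⟩
  · rw [Subgroup.index_comap_of_surjective _ (locEquiv q).symm.surjective]
    exact hN2.index_ne_zero
  · intro y hy
    rw [Subgroup.mem_comap] at hy ⊢
    apply hFN
    rw [Subgroup.mem_comap]
    have h1 : primeLocalToGlobal q ((locEquiv q).symm y) = (y : Qb ≃ₐ[ℚ] Qb) := by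
      rw [← coe_locEquiv, MulEquiv.apply_symm_apply]
    show primeLocalToGlobal q ((locEquiv q).symm y) ∈ F.fixingSubgroup
    rw [h1]
    exact hy

theorem trd_loc_symm (q : Nat.Primes) (y : (locField q).fixingSubgroup) :
    primeLocalToGlobal q ((locEquiv q).symm y) = (y : Qb ≃ₐ[ℚ] Qb) := by
  rw [← coe_locEquiv, MulEquiv.apply_symm_apply]

end Level

/-! ### The row -/

/-- **[TR-DICT]** the dictionary respects levels, cocycles and coboundaries. -/
theorem traceDict : TraceDictStatement := by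
  intro p _ ζ hζ
  refine ⟨fun S x => ⟨?_, fun hx => ?_⟩, fun q a => ⟨?_, fun ha => ?_⟩, fun q b => ?_⟩
  · -- global, level
    exact trd_lvlFun₂ (globalLevelSys S) (lvlE Q0) Q0.fixingSubgroup.subtype
      (pullback_compat_global S _) (muRep (cycloChar p)) x.2 (fun a : ZMod p => ζ ^ a.val)
  · -- global, cocycle
    have hx' : (inhomogeneousCochains.d (muRep (cycloChar p)) 2).hom x.1 = 0 := by
      have h := congrArg Subtype.val hx
      rw [lvlD_coe] at h
      exact h
    have hf : ∀ g0 g1 g2 : (Qb ≃ₐ[ℚ] Qb),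
        ((cycloChar p ((MonoidHom.id (Qb ≃ₐ[ℚ] Qb)) g0) : (ZMod p)ˣ) : ZMod p) * x.1 ![g1, g2]
          - x.1 ![g0 * g1, g2] + x.1 ![g0, g1 * g2] - x.1 ![g0, g1] = 0 := by
      intro g0 g1 g2
      have h := congrFun hx' ![g0, g1, g2]
      rw [trd_d2_apply] at h
      exact h
    intro g h j
    exact trd_cocycle ζ hζ (MonoidHom.id _) x.1 hf (g : Qb ≃ₐ[ℚ] Qb) h j
  · -- local, level
    exact trd_lvlFun₂ (pullbackLevelSys (primeLocalToGlobal q)) (lvlE (locField q))
      ((locEquiv q).symm : (locField q).fixingSubgroup →* primeLocalGaloisGroup q)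
      (trd_compat_loc q) (Rep.res (primeLocalToGlobal q) (muRep (cycloChar p))) a.2
      (fun a : ZMod p => ζ ^ a.val)
  · -- local, cocycle
    have ha' : (inhomogeneousCochains.d
        (Rep.res (primeLocalToGlobal q) (muRep (cycloChar p))) 2).hom a.1 = 0 := by
      have h := congrArg Subtype.val ha
      rw [lvlD_coe] at h
      exact h
    have hf : ∀ g0 g1 g2 : primeLocalGaloisGroup q,
        ((cycloChar p (primeLocalToGlobal q g0) : (ZMod p)ˣ) : ZMod p) * a.1 ![g1, g2]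
          - a.1 ![g0 * g1, g2] + a.1 ![g0, g1 * g2] - a.1 ![g0, g1] = 0 := by
      intro g0 g1 g2
      have h := congrFun ha' ![g0, g1, g2]
      rw [trd_d2_apply] at h
      exact h
    intro g h j
    have key := trd_cocycle ζ hζ (primeLocalToGlobal q) a.1 hf ((locEquiv q).symm g)
      ((locEquiv q).symm h) ((locEquiv q).symm j)
    rw [trd_loc_symm, ← map_mul, ← map_mul] at key
    exact key
  · -- local, coboundary
    refine ⟨fun g => ζ ^ (b.1 (fun _ => (locEquiv q).symm g)).val, ?_, ?_⟩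
    · exact trd_lvlFun₁ (pullbackLevelSys (primeLocalToGlobal q)) (lvlE (locField q))
        ((locEquiv q).symm : (locField q).fixingSubgroup →* primeLocalGaloisGroup q)
        (trd_compat_loc q) (Rep.res (primeLocalToGlobal q) (muRep (cycloChar p))) b.2
        (fun a : ZMod p => ζ ^ a.val)
    · rintro ⟨g, h⟩
      have key := trd_cobound ζ hζ (primeLocalToGlobal q)
        (fun γ => b.1 (fun _ => γ)) ((locEquiv q).symm g) ((locEquiv q).symm h)
      have hact : actU (primeLocalToGlobal q ((locEquiv q).symm g)) = actU (g : Qb ≃ₐ[ℚ] Qb) := by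
        rw [trd_loc_symm]
      rw [hact] at key
      show actU (g : Qb ≃ₐ[ℚ] Qb) (ζ ^ (b.1 (fun _ => (locEquiv q).symm h)).val)
          * ζ ^ (b.1 (fun _ => (locEquiv q).symm g)).val
          / ζ ^ (b.1 (fun _ => (locEquiv q).symm (g * h))).val
        = ζ ^ ((inhomogeneousCochains.d
            (Rep.res (primeLocalToGlobal q) (muRep (cycloChar p))) 1).hom b.1
              ![(locEquiv q).symm g, (locEquiv q).symm h]).val
      rw [trd_d1_apply, map_mul]
      exact key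

end Fermat.Agent.H62.Cft
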